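/-
S12 / FI (chief helper74): FORMAL IMMERSION AT THE CUSP in function-field language.
Blueprint: report #1479 (+ the amendments sent to the sub-architects).

This file: the common definitions and the CONTRACTS between the blocks.

Level `N` prime, `F = FN N = ℚ̄(X₀(N)) ⊂ ℚ̄((q))`, `J = JZero N`, `w = S15.A.wN N` the Fricke involution,
`∞ = S15.A.cInf N`, `0 = S15.A.cusp0 N = w ∞`, `L = intLattice N 2` (cusp forms with integral `q`-expansion),
`actL`, `aZ` = the action of `ℤ[X_ℓ]` (`X_N ↦ U_N`) and the coefficient functionals (S16/R/Concrete).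
-/
import Fermat.Agent.S15.A.Defs
import Fermat.Agent.S15.A.Cusp.Defs
import Fermat.Agent.S16.R.Concrete

set_option autoImplicit false

noncomputable section

namespace Fermat.Agent.S12.FI

open ModularCurve AlgebraicCurve CuspForm
open Fermat.Agent.S24 Fermat.Agent.S27 Fermat.Agent.S37 Fermat.Agent.S15 Fermat.Agent.S15.A
open Fermat.Agent.S16.R

variable (N : ℕ) [Fact N.Prime]

/-- The primes different from the level. -/
abbrev Pr : Type := {q : Nat.Primes // (q : ℕ) ≠ N}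

/-- Formal (non commutative) polynomials in the `T_q`, `q ≠ N` prime. -/
abbrev HH : Type := FreeAlgebra ℤ (Pr N)

/-- The action of the formal Hecke polynomials on `J₀(N)`. -/
def evJ : HH N →ₐ[ℤ] Module.End ℤ (JZero N) :=
  FreeAlgebra.lift ℤ fun q => (Tp N (q.1 : ℕ)).toIntLinearMap

/-- The image of a formal Hecke polynomial in the commutative polynomial ring `ℤ[X_ℓ]`. -/
def piH : HH N →ₐ[ℤ] HeckeAlg := FreeAlgebra.lift ℤ fun q => MvPolynomial.X q.1

/-- The variable `X_N` (it acts as `U_N` on cusp forms). -/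
def XN : HeckeAlg := MvPolynomial.X ⟨N, Fact.out⟩

/-- The Fricke involution on `J₀(N)`. -/
def wJ : Module.End ℤ (JZero N) :=
  (DistribSMul.toAddMonoidHom (JZero N) (SemilinearAut.ofAlgAut (wN N))).toIntLinearMap

/-- `Θ(s₁, s₂) = s₁ - s₂ w` on `J₀(N)`  (recall `U_N = - w`). -/
def Theta (s₁ s₂ : HH N) : Module.End ℤ (JZero N) := evJ N s₁ - evJ N s₂ * wJ N

/-- `s₁ + s₂ U_N` on the lattice of integral cusp forms. -/
def actT (s₁ s₂ : HH N) : Module.End ℤ ↥(intLattice N 2) :=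
  actL N (piH N s₁ + piH N s₂ * XN N)

/-- torsion points. -/
def IsTors (P : JZero N) : Prop := ∃ m : ℕ, 0 < m ∧ m • P = 0

/-! ## Principal parts -/

/-- `T_q` on principal parts `∑ c(n) q^(-n)`:  `(T_q c)(m) = [q ∣ m] c(m/q) + q c(m q)`. -/
def tpp (q : ℕ) : Module.End ℤ (ℕ →₀ ℤ) :=
  Finsupp.lmapDomain ℤ ℤ (fun n => n * q) +
    (q : ℤ) • (Finsupp.lsum ℤ fun n : ℕ =>
      if q ∣ n then Finsupp.lsingle (n / q) else (0 : ℤ →ₗ[ℤ] (ℕ →₀ ℤ)))

/-- The action of the formal Hecke polynomials on principal parts. -/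
def evPP : HH N →ₐ[ℤ] Module.End ℤ (ℕ →₀ ℤ) := FreeAlgebra.lift ℤ fun q => tpp (q.1 : ℕ)

/-- The principal part of `ψ = s₁^add(j) + s₂^add(j_N)`. -/
def ppc (s₁ s₂ : HH N) : ℕ →₀ ℤ :=
  evPP N s₁ (Finsupp.single 1 1) + evPP N s₂ (Finsupp.single N 1)

/-! ## The region -/

/-- `v(1/j(x)) > v(l)/(l-1)`, i.e. `l j(x)^(l-1) ∉ A`. -/
def Deep (A : ValuationSubring Kbar) (l : ℕ) (x : Place Kbar (FN N)) : Prop :=
  1 < (compRing A x).valuation ((l : FN N) * jF N ^ (l - 1))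

/-- the functions which are regular outside the cusp `∞`. -/
def RegOffInf (Y : FN N) : Prop := ∀ v : Place Kbar (FN N), v ≠ cInf N → 0 ≤ v.ord Y

/-! ## The contracts -/

/-- **KW**: an operator `s₁ + s₂ U_N` which vanishes on cusp forms kills `J₀(N)(ℚ)`. -/
def KWStmt : Prop :=
  ∀ s₁ s₂ : HH N, actT N s₁ s₂ = 0 → ∀ P : JZero N, IsRat N P → Theta N s₁ s₂ P = 0

/-- **U2**: `U_N² = 1` on the cusp forms of weight two and prime level `N`. -/
def U2Stmt : Prop := actL N (XN N * XN N) = 1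

/-- **GEOM** (blocks V, H, D, C, CL, M). -/
def GeomStmt : Prop :=
  ∀ l : ℕ, l.Prime → l ≠ N → ∀ A : ValuationSubring Kbar, A.LiesOverPrime l →
    ∀ x : Place Kbar (FN N), 0 ≤ x.ord (jF N) → NearInf N A x → Deep N A l x →
      ∀ s₁ s₂ : HH N, IsTors N (Theta N s₁ s₂ (cls (pt x - pt (cInf N)))) →
        ∃ Y : FN N, RegOffInf N Y ∧ ∀ n : ℕ, 1 ≤ n →
          (Y : LaurentSeries Kbar).coeff (-(n : ℤ)) + ((ppc N s₁ s₂ n : ℤ) : Kbar) ∈ A.nonunits

/-- **R**: the residue theorem for `Y g dq/q`, `Y` regular outside `∞`, `g` a cusp form. -/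
def ResStmt : Prop :=
  ∀ Y : FN N, RegOffInf N Y → ∀ (g : ↥(intLattice N 2)) (m : ℕ),
    (∀ k : ℤ, k < -(m : ℤ) → (Y : LaurentSeries Kbar).coeff k = 0) →
      ∑ n ∈ Finset.Icc 1 m,
        (Y : LaurentSeries Kbar).coeff (-(n : ℤ)) * ((aZ N n g : ℤ) : Kbar) = 0

/-- **PAIR**: `⟨ψ, g⟩ = a₁((s₁ + s₂ U_N) g)`. -/
def PairStmt : Prop :=
  ∀ (s₁ s₂ : HH N) (g : ↥(intLattice N 2)),
    ((ppc N s₁ s₂).sum fun n c => c * aZ N n g) = aZ N 1 (actT N s₁ s₂ g)

/-- **FI**: the formal immersion theorem. -/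
def FIStmt : Prop :=
  ∀ l : ℕ, l.Prime → l ≠ N → ∀ A : ValuationSubring Kbar, A.LiesOverPrime l →
    ∀ x : Place Kbar (FN N), 0 ≤ x.ord (jF N) → NearInf N A x → Deep N A l x →
      ∀ s₁ s₂ : HH N, IsTors N (Theta N s₁ s₂ (cls (pt x - pt (cInf N)))) →
        ∀ g : ↥(intLattice N 2), (l : ℤ) ∣ aZ N 1 (actT N s₁ s₂ g)

/-- **NoPoint**: the conclusion of the whole block. -/
def NoPointStmt : Prop :=
  ∀ l : ℕ, l.Prime → l ≠ N → ∀ A : ValuationSubring Kbar, A.LiesOverPrime l →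
    ∀ x : Place Kbar (FN N), FixedPl N x → 0 ≤ x.ord (jF N) → NearInf N A x → ¬ Deep N A l x

end Fermat.Agent.S12.FI

end
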