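/-
S12 / FI (chief helper74): elementary API for the definitions of `S12/FI/Defs.lean`.
-/
import Fermat.Agent.S12.FI.Defs
import Fermat.Agent.S15.Contracts

set_option autoImplicit false
set_option linter.unusedSectionVars false

noncomputable section

namespace Fermat.Agent.S12.FI

open ModularCurve AlgebraicCurve CuspForm
open Fermat.Agent.S24 Fermat.Agent.S27 Fermat.Agent.S37 Fermat.Agent.S15 Fermat.Agent.S15.A
open Fermat.Agent.S16.R

variable (N : ℕ) [Fact N.Prime]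

/-! ### torsion points -/

variable {N} in
theorem IsTors.map {P : JZero N} (h : IsTors N P) (f : Module.End ℤ (JZero N)) :
    IsTors N (f P) := by
  obtain ⟨m, hm, h0⟩ := h
  exact ⟨m, hm, by rw [← map_nsmul, h0, map_zero]⟩

variable {N} in
theorem IsTors.add {P Q : JZero N} (hP : IsTors N P) (hQ : IsTors N Q) : IsTors N (P + Q) := by
  obtain ⟨m, hm, h0⟩ := hP
  obtain ⟨n, hn, h1⟩ := hQ
  refine ⟨m * n, Nat.mul_pos hm hn, ?_⟩
  rw [nsmul_add, mul_nsmul, h0, nsmul_zero, mul_nsmul', h1, nsmul_zero, add_zero]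

variable {N} in
theorem IsTors.neg {P : JZero N} (hP : IsTors N P) : IsTors N (-P) := by
  obtain ⟨m, hm, h0⟩ := hP
  exact ⟨m, hm, by rw [neg_nsmul, h0, neg_zero]⟩

theorem isTors_zero : IsTors N (0 : JZero N) := by
  exact ⟨1, one_pos, nsmul_zero _⟩

variable {N} in
theorem isTors_of_zsmul {P : JZero N} {n : ℤ} (hn : n ≠ 0) (h : IsTors N (n • P)) :
    IsTors N P := by
  obtain ⟨m, hm, h0⟩ := h
  refine ⟨m * n.natAbs, Nat.mul_pos hm (Int.natAbs_pos.2 hn), ?_⟩
  rw [mul_nsmul']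
  rcases Int.natAbs_eq n with h1 | h1
  · rw [h1, natCast_zsmul] at h0
    exact h0
  · rw [h1, neg_zsmul, natCast_zsmul, neg_nsmul, neg_eq_zero] at h0
    exact h0

/-! ### the Fricke involution on `J₀(N)` -/

theorem Basic.wN_wN (y : FN N) : wN N (wN N y) = y := by
  show GAL.E.levelCast (one_mul N) (GAL.E.wAL 1 N _ ((GAL.E.levelCast (one_mul N)).symm
    (GAL.E.levelCast (one_mul N) (GAL.E.wAL 1 N _ ((GAL.E.levelCast (one_mul N)).symm y))))) = y
  rw [AlgEquiv.symm_apply_apply, GAL.E.wAL_wAL, AlgEquiv.apply_symm_apply]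

theorem Basic.wN_mul_wN : wN N * wN N = 1 := AlgEquiv.ext fun y => Basic.wN_wN N y

theorem Basic.galF_wN (σ : S15.GQ) (y : FN N) :
    GAL.E.galF N σ (wN N y) = wN N (GAL.E.galF N σ y) := by
  show GAL.E.galF N σ (GAL.E.levelCast (one_mul N) (GAL.E.wAL 1 N _
      ((GAL.E.levelCast (one_mul N)).symm y))) =
    GAL.E.levelCast (one_mul N) (GAL.E.wAL 1 N _
      ((GAL.E.levelCast (one_mul N)).symm (GAL.E.galF N σ y)))
  rw [GAL.E.galF_levelCast, GAL.E.galF_wAL, GAL.E.levelCast_symm, GAL.E.galF_levelCast]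

theorem Basic.gal_mul_w (σ : S15.GQ) :
    arithmeticGalois (modularFunctionFieldFull N) σ * SemilinearAut.ofAlgAut (wN N) =
      SemilinearAut.ofAlgAut (wN N) * arithmeticGalois (modularFunctionFieldFull N) σ := by
  refine Subtype.ext (Prod.ext (RingEquiv.ext fun y => ?_) ?_)
  · exact Basic.galF_wN N σ y
  · exact (mul_one _).trans (one_mul _).symm

theorem Basic.smul_cls (g : SemilinearAut Kbar (FN N)) {D : Divisor Kbar (FN N)}
    (hD : Divisor.degree D = 0) : g • (cls D : JZero N) = cls (g • D) := by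
  rw [cls_eq_mk hD, cls_eq_mk (by rw [SemilinearAut.degree_smul, hD]), SemilinearAut.pic0_smul_mk]
  rfl

theorem Basic.smul_cls_pt_sub_pt (g : SemilinearAut Kbar (FN N)) (x y : Place Kbar (FN N)) :
    g • (cls (pt x - pt y) : JZero N) = cls (pt (g • x) - pt (g • y)) := by
  rw [Basic.smul_cls N g (degree_pt_sub_pt x y), smul_sub, pt, pt, SemilinearAut.smul_single,
    SemilinearAut.smul_single]
  rfl


theorem wJ_apply (P : JZero N) : wJ N P = SemilinearAut.ofAlgAut (wN N) • P := rfl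

theorem wJ_mul_wJ : wJ N * wJ N = 1 := by
  refine LinearMap.ext fun P => ?_
  show SemilinearAut.ofAlgAut (wN N) • SemilinearAut.ofAlgAut (wN N) • P = P
  rw [← mul_smul, ← map_mul, Basic.wN_mul_wN, map_one, one_smul]

/-- `w` is defined over `ℚ` (`GAL.E.galF_wAL`, `galF_levelCast`). -/
theorem isRat_wJ {P : JZero N} (hP : IsRat N P) : IsRat N (wJ N P) := by
  intro σ
  rw [wJ_apply, galois_smul_pic0_def, ← mul_smul, Basic.gal_mul_w, mul_smul,
    ← galois_smul_pic0_def, hP σ]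

theorem wJ_cls_pt_sub_pt (x y : Place Kbar (FN N)) :
    wJ N (cls (pt x - pt y)) =
      cls (pt (SemilinearAut.ofAlgAut (wN N) • x) - pt (SemilinearAut.ofAlgAut (wN N) • y)) := by
  rw [wJ_apply, Basic.smul_cls_pt_sub_pt]

/-- the class of the difference of two `G_ℚ`-fixed places is rational. -/
theorem isRat_cls_pt_sub_pt {x y : Place Kbar (FN N)} (hx : FixedPl N x) (hy : FixedPl N y) :
    IsRat N (cls (pt x - pt y)) := by
  intro σ
  rw [galois_smul_pic0_def, Basic.smul_cls_pt_sub_pt, hx σ, hy σ]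

/-- the cusp `∞` is fixed by `G_ℚ` (`S17.W.smul_cusp`). -/
theorem fixedPl_cInf : FixedPl N (cInf N) := by
  exact fun σ => Fermat.Agent.S17.W.smul_cusp N σ

/-! ### formal Hecke polynomials -/

theorem evJ_ι (q : Pr N) (P : JZero N) : evJ N (FreeAlgebra.ι ℤ q) P = Tp N (q.1 : ℕ) P := by
  rw [evJ, FreeAlgebra.lift_ι_apply]
  rfl

theorem piH_ι (q : Pr N) : piH N (FreeAlgebra.ι ℤ q) = MvPolynomial.X q.1 := by
  rw [piH, FreeAlgebra.lift_ι_apply]

/-- the elements of the ring `TT N M` (`N ∣ M`) of S15 are values of formal Hecke polynomials. -/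
theorem exists_evJ_eq {M : ℕ} (hM : N ∣ M) {t : AddMonoid.End (JZero N)} (ht : t ∈ TT N M) :
    ∃ s : HH N, ∀ P : JZero N, evJ N s P = t P := by
  induction ht using Subring.closure_induction with
  | mem t ht =>
    obtain ⟨p, hp, hpM, rfl⟩ := ht
    have hne : p ≠ N := by
      rintro rfl
      exact hpM hM
    exact ⟨FreeAlgebra.ι ℤ (⟨⟨p, hp⟩, hne⟩ : Pr N), fun P => evJ_ι N _ P⟩
  | zero => exact ⟨0, fun P => by rw [map_zero]; rfl⟩
  | one => exact ⟨1, fun P => by rw [map_one]; rfl⟩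
  | add a b _ _ ha hb =>
    obtain ⟨s, hs⟩ := ha
    obtain ⟨r, hr⟩ := hb
    exact ⟨s + r, fun P => by rw [map_add, LinearMap.add_apply, hs, hr]; rfl⟩
  | neg a _ ha =>
    obtain ⟨s, hs⟩ := ha
    exact ⟨-s, fun P => by rw [map_neg, LinearMap.neg_apply, hs]; rfl⟩
  | mul a b _ _ ha hb =>
    obtain ⟨s, hs⟩ := ha
    obtain ⟨r, hr⟩ := hb
    exact ⟨s * r, fun P => by rw [map_mul, Module.End.mul_apply, hr, hs]; rfl⟩

theorem Theta_zero_right (s : HH N) : Theta N s 0 = evJ N s := by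
  rw [Theta, map_zero, zero_mul, sub_zero]

theorem Theta_add (s₁ s₂ r₁ r₂ : HH N) :
    Theta N (s₁ + r₁) (s₂ + r₂) = Theta N s₁ s₂ + Theta N r₁ r₂ := by
  rw [Theta, Theta, Theta, map_add, map_add, add_mul]
  abel

theorem Theta_sub (s₁ s₂ r₁ r₂ : HH N) :
    Theta N (s₁ - r₁) (s₂ - r₂) = Theta N s₁ s₂ - Theta N r₁ r₂ := by
  rw [Theta, Theta, Theta, map_sub, map_sub, sub_mul]
  abel

theorem Theta_zsmul (n : ℤ) (s₁ s₂ : HH N) :
    Theta N (n • s₁) (n • s₂) = n • Theta N s₁ s₂ := by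
  rw [Theta, Theta, map_zsmul, map_zsmul, smul_mul_assoc, smul_sub]

theorem Theta_mul_left (r s₁ s₂ : HH N) :
    Theta N (r * s₁) (r * s₂) = evJ N r * Theta N s₁ s₂ := by
  rw [Theta, Theta, map_mul, map_mul, mul_sub, mul_assoc]

/-- `Θ(s₂, s₁) = Θ(s₁, s₂) ∘ (-w)`. -/
theorem Theta_swap (s₁ s₂ : HH N) : Theta N s₂ s₁ = - (Theta N s₁ s₂ * wJ N) := by
  rw [Theta, Theta, sub_mul, mul_assoc, wJ_mul_wJ, mul_one, neg_sub]

theorem actT_zero_right (s : HH N) : actT N s 0 = actL N (piH N s) := by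
  rw [actT, map_zero, zero_mul, add_zero]

theorem actT_add (s₁ s₂ r₁ r₂ : HH N) :
    actT N (s₁ + r₁) (s₂ + r₂) = actT N s₁ s₂ + actT N r₁ r₂ := by
  simp only [actT, map_add, add_mul]
  abel

theorem actT_sub (s₁ s₂ r₁ r₂ : HH N) :
    actT N (s₁ - r₁) (s₂ - r₂) = actT N s₁ s₂ - actT N r₁ r₂ := by
  simp only [actT, map_add, map_sub, sub_mul]
  abel

theorem actT_zsmul (n : ℤ) (s₁ s₂ : HH N) : actT N (n • s₁) (n • s₂) = n • actT N s₁ s₂ := by
  rw [actT, actT, ← map_zsmul, map_zsmul, map_zsmul, smul_mul_assoc, smul_add]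

theorem actT_mul_left (r s₁ s₂ : HH N) :
    actT N (r * s₁) (r * s₂) = actL N (piH N r) * actT N s₁ s₂ := by
  simp only [actT, map_add, map_mul, mul_add, mul_assoc]

/-- `s₂ + s₁ U_N = U_N (s₁ + s₂ U_N)` because `U_N² = 1`. -/
theorem actT_swap (hU : U2Stmt N) (s₁ s₂ : HH N) :
    actT N s₂ s₁ = actL N (XN N) * actT N s₁ s₂ := by
  have h1 : XN N * (piH N s₁ + piH N s₂ * XN N) = piH N s₂ * (XN N * XN N) + piH N s₁ * XN N := by
    ring
  have hU' : actL N (XN N * XN N) = 1 := hU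
  rw [actT, actT, ← map_mul, h1, map_add (actL N) (piH N s₂ * _), map_mul (actL N) (piH N s₂),
    hU', mul_one, ← map_add]

end Fermat.Agent.S12.FI

end
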