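/-
S12 / FI (chief helper74): the formal immersion theorem from GEOM, R and PAIR.
-/
import Fermat.Agent.S12.FI.Defs

set_option autoImplicit false

noncomputable section

namespace Fermat.Agent.S12.FI

open ModularCurve AlgebraicCurve CuspForm
open Fermat.Agent.S24 Fermat.Agent.S27 Fermat.Agent.S37 Fermat.Agent.S15 Fermat.Agent.S15.A
open Fermat.Agent.S16.R

variable (N : ℕ) [Fact N.Prime]

theorem fiOf_val_intCast_le_one (A : ValuationSubring Kbar) (z : ℤ) :
    A.valuation (z : Kbar) ≤ 1 :=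
  (A.valuation_le_one_iff _).2 (intCast_mem A z)

theorem fiOf_val_mul_lt_one (A : ValuationSubring Kbar) {x : Kbar} (hx : A.valuation x < 1)
    (z : ℤ) : A.valuation (x * (z : Kbar)) < 1 := by
  rw [map_mul]
  exact lt_of_le_of_lt (mul_le_of_le_one_right' (fiOf_val_intCast_le_one A z)) hx

/-- an integer which lies in the maximal ideal of `A | l` is divisible by `l`. -/
theorem dvd_of_intCast_mem_nonunits {l : ℕ} (hl : l.Prime) {A : ValuationSubring Kbar}
    (hA : A.LiesOverPrime l) {z : ℤ} (hz : (z : Kbar) ∈ A.nonunits) : (l : ℤ) ∣ z := by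
  by_contra hn
  have hl1 : A.valuation (l : Kbar) < 1 := (A.mem_nonunits_iff).1 hA
  have hz1 : A.valuation (z : Kbar) < 1 := (A.mem_nonunits_iff).1 hz
  have hcop : IsCoprime z (l : ℤ) :=
    ((Nat.prime_iff_prime_int.1 hl).coprime_iff_not_dvd.2 hn).symm
  obtain ⟨a, b, hab⟩ := hcop
  have hb' : (z : Kbar) * (a : Kbar) + (l : Kbar) * (b : Kbar) = 1 := by
    have := congrArg (Int.cast : ℤ → Kbar) hab
    push_cast at this
    rw [← this]
    ring
  have : A.valuation (1 : Kbar) < 1 := by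
    rw [← hb']
    exact lt_of_le_of_lt (A.valuation.map_add _ _)
      (max_lt (fiOf_val_mul_lt_one A hz1 a) (fiOf_val_mul_lt_one A hl1 b))
  rw [map_one] at this
  exact lt_irrefl _ this

theorem fiOf_aZ_zero (g : ↥(intLattice N 2)) : aZ N 0 g = 0 := by
  rw [aZ_eq_iff, Int.cast_zero]
  exact Fermat.Agent.S49.qCoeff_zero_index g.1

theorem fiStmt_of (hG : GeomStmt N) (hR : ResStmt N) (hP : PairStmt N) : FIStmt N := by
  intro l hl hlN A hA x hx0 hxI hxD s₁ s₂ hT g
  obtain ⟨Y, hY, hYc⟩ := hG l hl hlN A hA x hx0 hxI hxD s₁ s₂ hT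
  set c : ℕ →₀ ℤ := ppc N s₁ s₂ with hc
  -- a common bound
  let m : ℕ := max (-(Y : LaurentSeries Kbar).order).toNat (c.support.sup id)
  have hm1 : ∀ k : ℤ, k < -(m : ℤ) → (Y : LaurentSeries Kbar).coeff k = 0 := by
    intro k hk
    apply HahnSeries.coeff_eq_zero_of_lt_order
    have h1 : (-(Y : LaurentSeries Kbar).order).toNat ≤ m := le_max_left _ _
    have h2 : -(Y : LaurentSeries Kbar).order ≤ ((-(Y : LaurentSeries Kbar).order).toNat : ℤ) :=
      Int.self_le_toNat _
    have h3 : ((-(Y : LaurentSeries Kbar).order).toNat : ℤ) ≤ (m : ℤ) := by exact_mod_cast h1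
    omega
  have hm2 : c.support ⊆ insert 0 (Finset.Icc 1 m) := by
    intro n hn
    have h1 : n ≤ c.support.sup id := Finset.le_sup (f := id) hn
    have h2 : c.support.sup id ≤ m := le_max_right _ _
    rw [Finset.mem_insert, Finset.mem_Icc]
    omega
  have hres := hR Y hY g m hm1
  have hsum : aZ N 1 (actT N s₁ s₂ g) = ∑ n ∈ Finset.Icc 1 m, c n * aZ N n g := by
    rw [← hP s₁ s₂ g, ← hc,
      Finsupp.sum_of_support_subset c hm2 (fun n z => z * aZ N n g) (fun i _ => zero_mul _),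
      Finset.sum_insert (by simp), fiOf_aZ_zero, mul_zero, zero_add]
  apply dvd_of_intCast_mem_nonunits hl hA
  rw [hsum, A.mem_nonunits_iff]
  have e : ((∑ n ∈ Finset.Icc 1 m, c n * aZ N n g : ℤ) : Kbar) =
      ∑ n ∈ Finset.Icc 1 m,
        ((Y : LaurentSeries Kbar).coeff (-(n : ℤ)) + ((c n : ℤ) : Kbar)) *
          ((aZ N n g : ℤ) : Kbar) := by
    simp only [add_mul, Finset.sum_add_distrib]
    rw [hres, zero_add]
    push_cast
    rfl
  rw [e]
  apply Valuation.map_sum_lt _ one_ne_zero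
  intro n hn
  exact fiOf_val_mul_lt_one A ((A.mem_nonunits_iff).1 (hYc n (Finset.mem_Icc.1 hn).1)) _

end Fermat.Agent.S12.FI

end
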