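/-
S12 / FI (chief helper74): the ideal of the Hecke polynomials which map `J₀(N)(ℚ)` into the torsion.
-/
import Fermat.Agent.S12.FI.Basic

set_option autoImplicit false

noncomputable section

namespace Fermat.Agent.S12.FI

open ModularCurve AlgebraicCurve CuspForm
open Fermat.Agent.S24 Fermat.Agent.S27 Fermat.Agent.S37 Fermat.Agent.S15 Fermat.Agent.S15.A
open Fermat.Agent.S16.R

variable (N : ℕ) [Fact N.Prime]

/-- `t` acts on cusp forms as some `s₁ + s₂ U_N` such that `s₁ - s₂ w` maps `J₀(N)(ℚ)` into the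
torsion. -/
def InTors (t : HeckeAlg) : Prop :=
  ∃ s₁ s₂ : HH N, actT N s₁ s₂ = actL N t ∧ ∀ P : JZero N, IsRat N P → IsTors N (Theta N s₁ s₂ P)

theorem inTors_of_actL_eq_zero {t : HeckeAlg} (h : actL N t = 0) : InTors N t := by
  refine ⟨0, 0, ?_, fun P _ => ?_⟩
  · rw [actT_zero_right, map_zero, map_zero, h]
  · rw [Theta_zero_right, map_zero, LinearMap.zero_apply]
    exact isTors_zero N

variable {N} in
theorem InTors.add {t t' : HeckeAlg} (h : InTors N t) (h' : InTors N t') : InTors N (t + t') := by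
  obtain ⟨s₁, s₂, hs, hT⟩ := h
  obtain ⟨r₁, r₂, hr, hT'⟩ := h'
  refine ⟨s₁ + r₁, s₂ + r₂, ?_, fun P hP => ?_⟩
  · rw [actT_add, hs, hr, map_add]
  · rw [Theta_add, LinearMap.add_apply]
    exact (hT P hP).add (hT' P hP)

variable {N} in
theorem InTors.C_mul {t : HeckeAlg} (h : InTors N t) (z : ℤ) :
    InTors N (MvPolynomial.C z * t) := by
  obtain ⟨s₁, s₂, hs, hT⟩ := h
  refine ⟨z • s₁, z • s₂, ?_, fun P hP => ?_⟩
  · rw [actT_zsmul, hs, MvPolynomial.C_mul', map_zsmul]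
  · rw [Theta_zsmul]
    exact (hT P hP).map (z • (1 : Module.End ℤ (JZero N)))

variable {N} in
/-- the effect of `X_q` on normal forms. -/
private theorem Ideal_actT_X_mul (hU : U2Stmt N) {t : HeckeAlg} {s₁ s₂ : HH N}
    (hs : actT N s₁ s₂ = actL N t) (q : Nat.Primes) :
    (∃ hq : (q : ℕ) ≠ N, actT N (FreeAlgebra.ι ℤ (⟨q, hq⟩ : Pr N) * s₁)
        (FreeAlgebra.ι ℤ (⟨q, hq⟩ : Pr N) * s₂) = actL N (MvPolynomial.X q * t)) ∨
      actT N s₂ s₁ = actL N (MvPolynomial.X q * t) := by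
  by_cases hq : (q : ℕ) = N
  · right
    have hX : (MvPolynomial.X q : HeckeAlg) = XN N := by
      unfold XN
      congr 1
      exact Subtype.ext hq
    rw [actT_swap N hU, hs, hX, map_mul]
  · left
    refine ⟨hq, ?_⟩
    rw [actT_mul_left, piH_ι, hs, map_mul]

variable {N} in
/-- `q ≠ N`: `(ι q * s₁, ι q * s₂)`;  `q = N`: `(s₂, s₁)` (`actT_swap`, `Theta_swap`, `isRat_wJ`). -/
theorem InTors.X_mul (hU : U2Stmt N) {t : HeckeAlg} (h : InTors N t) (q : Nat.Primes) :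
    InTors N (MvPolynomial.X q * t) := by
  obtain ⟨s₁, s₂, hs, hT⟩ := h
  rcases Ideal_actT_X_mul hU hs q with ⟨hq, h1⟩ | h1
  · refine ⟨_, _, h1, fun P hP => ?_⟩
    rw [Theta_mul_left]
    exact (hT P hP).map _
  · refine ⟨_, _, h1, fun P hP => ?_⟩
    rw [Theta_swap, LinearMap.neg_apply]
    exact (hT _ (isRat_wJ N hP)).neg

variable {N} in
theorem InTors.mul (hU : U2Stmt N) {t : HeckeAlg} (h : InTors N t) (c : HeckeAlg) :
    InTors N (c * t) := by
  induction c using MvPolynomial.induction_on with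
  | C z => exact h.C_mul z
  | add a b ha hb =>
    rw [add_mul]
    exact ha.add hb
  | mul_X a q ha =>
    rw [mul_comm a, mul_assoc]
    exact ha.X_mul hU q

/-- normal forms: every Hecke polynomial acts on cusp forms as some `s₁ + s₂ U_N`. -/
theorem exists_normalForm (hU : U2Stmt N) (t : HeckeAlg) :
    ∃ s₁ s₂ : HH N, actT N s₁ s₂ = actL N t := by
  induction t using MvPolynomial.induction_on with
  | C z =>
    refine ⟨algebraMap ℤ (HH N) z, 0, ?_⟩
    rw [actT_zero_right, AlgHom.commutes]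
    rfl
  | add a b ha hb =>
    obtain ⟨s₁, s₂, hs⟩ := ha
    obtain ⟨r₁, r₂, hr⟩ := hb
    exact ⟨s₁ + r₁, s₂ + r₂, by rw [actT_add, hs, hr, map_add]⟩
  | mul_X a q ha =>
    obtain ⟨s₁, s₂, hs⟩ := ha
    rw [mul_comm a]
    rcases Ideal_actT_X_mul hU hs q with ⟨hq, h1⟩ | h1
    · exact ⟨_, _, h1⟩
    · exact ⟨_, _, h1⟩

/-- The ideal. -/
def torsIdeal (hU : U2Stmt N) : Ideal HeckeAlg where
  carrier := {t | InTors N t}
  add_mem' := fun h h' => InTors.add h h'
  zero_mem' := inTors_of_actL_eq_zero N (map_zero _)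
  smul_mem' := fun c _ h => InTors.mul hU h c

theorem mem_torsIdeal (hU : U2Stmt N) (t : HeckeAlg) : t ∈ torsIdeal N hU ↔ InTors N t := Iff.rfl

theorem ker_le_torsIdeal (hU : U2Stmt N) : RingHom.ker (actL N) ≤ torsIdeal N hU :=
  fun _ ht => inTors_of_actL_eq_zero N (RingHom.mem_ker.mp ht)

/-- saturation (normal form of `t`, `KW` for the difference, `isTors_of_zsmul`). -/
theorem torsIdeal_sat (hU : U2Stmt N) (hKW : KWStmt N) (n : ℤ) (hn : n ≠ 0) (t : HeckeAlg)
    (h : n • t ∈ torsIdeal N hU) : t ∈ torsIdeal N hU := by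
  obtain ⟨s₁, s₂, hs, hT⟩ := h
  obtain ⟨r₁, r₂, hr⟩ := exists_normalForm N hU t
  refine ⟨r₁, r₂, hr, fun P hP => ?_⟩
  have h0 : actT N (n • r₁ - s₁) (n • r₂ - s₂) = 0 := by
    rw [actT_sub, actT_zsmul, hr, hs, map_zsmul, sub_self]
  have h1 := hKW _ _ h0 P hP
  rw [Theta_sub, Theta_zsmul, LinearMap.sub_apply, LinearMap.smul_apply, sub_eq_zero] at h1
  apply isTors_of_zsmul hn
  rw [h1]
  exact hT P hP

end Fermat.Agent.S12.FI

end
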