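/-
S12 / FI (chief helper74): no `G_ℚ`-fixed non-cuspidal place deep inside the residue disc of `∞`.
-/
import Fermat.Agent.S12.FI.Ideal
import Fermat.Agent.S12.FI.Alg.Main

set_option autoImplicit false

noncomputable section

namespace Fermat.Agent.S12.FI

open ModularCurve AlgebraicCurve CuspForm
open Fermat.Agent.S24 Fermat.Agent.S27 Fermat.Agent.S37 Fermat.Agent.S15 Fermat.Agent.S15.A
open Fermat.Agent.S16.R

variable (N : ℕ) [Fact N.Prime]

/-- If there is a deep fixed place, the ideal `torsIdeal` acts as zero on cusp forms. -/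
theorem actL_eq_zero_of_place (hKW : KWStmt N) (hU : U2Stmt N) (hFI : FIStmt N)
    {l : ℕ} (hl : l.Prime) (hlN : l ≠ N) {A : ValuationSubring Kbar} (hA : A.LiesOverPrime l)
    {x : Place Kbar (FN N)} (hx : FixedPl N x) (hx0 : 0 ≤ x.ord (jF N)) (hxI : NearInf N A x)
    (hxD : Deep N A l x) : ∀ t ∈ torsIdeal N hU, actL N t = 0 := by
  have := intLattice.moduleFinite N
  have := intLattice.moduleFree N
  refine alg_endgame (isHeckeLattice_intLattice N) l hl.one_lt (torsIdeal N hU)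
    (ker_le_torsIdeal N hU)
    (fun t ht => torsIdeal_sat N hU hKW (l : ℤ) (Int.natCast_ne_zero.mpr hl.ne_zero) t ht) ?_
  rintro t ⟨s₁, s₂, hs, hT⟩ f
  rw [← hs]
  exact hFI l hl hlN A hA x hx0 hxI hxD s₁ s₂
    (hT _ (isRat_cls_pt_sub_pt N hx (fixedPl_cInf N))) f

/-- `RankZero` produces an element of `torsIdeal` which does not act as zero. -/
theorem exists_mem_torsIdeal (z : Place Kbar (FN N)) (hRZ : RankZero N) (hC : CuspStmt N z)
    (hE : EisStmt N z) (hKW : KWStmt N) (hU : U2Stmt N) :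
    ∃ t ∈ torsIdeal N hU, actL N t ≠ 0 := by
  obtain ⟨-, hzF, hzT, hz0⟩ := hC
  have hN : N.Prime := Fact.out
  have hN1 : N - 1 ≠ 0 := by have := hN.two_le; omega
  have hord : addOrderOf (cc N z) ∣ N - 1 := addOrderOf_dvd_of_nsmul_eq_zero hzT
  have hpos : 0 < addOrderOf (cc N z) := Nat.pos_of_dvd_of_pos hord (Nat.pos_of_ne_zero hN1)
  have hne1 : addOrderOf (cc N z) ≠ 1 := fun h => hz0 (AddMonoid.addOrderOf_eq_one_iff.mp h)
  obtain ⟨r, hr, hrd⟩ := Nat.exists_prime_and_dvd hne1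
  have hrN : r ≠ N := by
    have := Nat.le_of_dvd (Nat.pos_of_ne_zero hN1) (hrd.trans hord)
    omega
  have hrat : IsRat N (cc N z) := isRat_cls_pt_sub_pt N hzF (fixedPl_cInf N)
  obtain ⟨t, ht, d, htd, hd, htors⟩ := hRZ (cc N z) r hr hrN hpos hrd hrat hE
  obtain ⟨s, hs⟩ := exists_evJ_eq N (Dvd.intro r rfl) ht
  refine ⟨piH N s, ⟨s, 0, actT_zero_right N s, fun P hP => ?_⟩, fun h0 => hd ?_⟩
  · rw [Theta_zero_right, hs]
    exact htors P hP
  · have h1 := hKW s 0 (by rw [actT_zero_right, h0]) (cc N z) hrat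
    rw [Theta_zero_right, hs, htd] at h1
    exact (Int.natCast_dvd_natCast.mpr hrd).trans (addOrderOf_dvd_iff_zsmul_eq_zero.mpr h1)

theorem noPointStmt_of (z : Place Kbar (FN N)) (hRZ : RankZero N) (hC : CuspStmt N z)
    (hE : EisStmt N z) (hKW : KWStmt N) (hU : U2Stmt N) (hFI : FIStmt N) : NoPointStmt N := by
  intro l hl hlN A hA x hx hx0 hxI hxD
  obtain ⟨t, ht, ht0⟩ := exists_mem_torsIdeal N z hRZ hC hE hKW hU
  exact ht0 (actL_eq_zero_of_place N hKW hU hFI hl hlN hA hx hx0 hxI hxD t ht)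

end Fermat.Agent.S12.FI

end
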