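/-
S12 / FI (chief helper74): the pairing between principal parts and cusp forms is Hecke-adjoint.
-/
import Fermat.Agent.S12.FI.Defs

set_option autoImplicit false

noncomputable section

namespace Fermat.Agent.S12.FI

open ModularCurve CuspForm Fermat.Agent.S16.R

variable (N : ℕ) [Fact N.Prime]

/-- the pairing `⟨c, g⟩ = ∑ c(n) a_n(g)`. -/
def pair (c : ℕ →₀ ℤ) (g : ↥(intLattice N 2)) : ℤ := c.sum fun n z => z * aZ N n g

theorem pair_add (c c' : ℕ →₀ ℤ) (g : ↥(intLattice N 2)) :
    pair N (c + c') g = pair N c g + pair N c' g := by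
  unfold pair
  exact Finsupp.sum_add_index' (fun n => zero_mul _) (fun n z z' => add_mul _ _ _)

theorem pair_single (n : ℕ) (z : ℤ) (g : ↥(intLattice N 2)) :
    pair N (Finsupp.single n z) g = z * aZ N n g := by
  unfold pair
  exact Finsupp.sum_single_index (zero_mul _)

theorem pair_zero_left (g : ↥(intLattice N 2)) : pair N 0 g = 0 := by
  unfold pair
  exact Finsupp.sum_zero_index

theorem pair_smul_left (r : ℤ) (c : ℕ →₀ ℤ) (g : ↥(intLattice N 2)) :
    pair N (r • c) g = r * pair N c g := by
  induction c using Finsupp.induction_linear with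
  | zero => rw [smul_zero, pair_zero_left, mul_zero]
  | add c c' h h' => rw [smul_add, pair_add, pair_add, h, h', mul_add]
  | single n z => rw [Finsupp.smul_single, pair_single, pair_single, smul_eq_mul, mul_assoc]

theorem pair_add_right (c : ℕ →₀ ℤ) (g g' : ↥(intLattice N 2)) :
    pair N c (g + g') = pair N c g + pair N c g' := by
  induction c using Finsupp.induction_linear with
  | zero => simp only [pair_zero_left, add_zero]
  | add c c' h h' => rw [pair_add, pair_add, pair_add, h, h']; ring
  | single n z => rw [pair_single, pair_single, pair_single, map_add, mul_add]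

theorem pair_smul_right (r : ℤ) (c : ℕ →₀ ℤ) (g : ↥(intLattice N 2)) :
    pair N c (r • g) = r * pair N c g := by
  induction c using Finsupp.induction_linear with
  | zero => simp only [pair_zero_left, mul_zero]
  | add c c' h h' => rw [pair_add, pair_add, h, h', mul_add]
  | single n z => rw [pair_single, pair_single, map_smul, smul_eq_mul]; ring

theorem tpp_single (q n : ℕ) (z : ℤ) :
    tpp q (Finsupp.single n z) = Finsupp.single (n * q) z +
      (q : ℤ) • (if q ∣ n then Finsupp.single (n / q) z else 0) := by
  unfold tpp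
  rw [LinearMap.add_apply, LinearMap.smul_apply, Finsupp.lmapDomain_apply,
    Finsupp.mapDomain_single, Finsupp.lsum_single]
  split_ifs
  · rfl
  · rfl

/-- `⟨T_q c, g⟩ = ⟨c, T_q g⟩` (`isHeckeLattice_intLattice.hT`). -/
theorem pair_tpp (q : Pr N) (c : ℕ →₀ ℤ) (g : ↥(intLattice N 2)) :
    pair N (tpp (q.1 : ℕ) c) g = pair N c (actL N (MvPolynomial.X q.1) g) := by
  induction c using Finsupp.induction_linear with
  | zero => rw [map_zero, pair_zero_left, pair_zero_left]
  | add c c' h h' => rw [map_add, pair_add, pair_add, h, h']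
  | single n z =>
    rw [tpp_single, pair_add, pair_smul_left, pair_single, pair_single,
      (isHeckeLattice_intLattice N).hT q.1 q.2 g n, mul_comm n (q.1 : ℕ)]
    split_ifs
    · rw [pair_single]
      ring
    · rw [pair_zero_left]
      ring

/-- `⟨s c, g⟩ = ⟨c, s g⟩` (induction on `s`; the `actL` commute). -/
theorem pair_evPP (s : HH N) (c : ℕ →₀ ℤ) (g : ↥(intLattice N 2)) :
    pair N (evPP N s c) g = pair N c (actL N (piH N s) g) := by
  induction s using FreeAlgebra.induction generalizing c g with
  | grade0 r =>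
    rw [AlgHom.commutes, AlgHom.commutes, Module.algebraMap_end_apply, pair_smul_left]
    have h : actL N (algebraMap ℤ HeckeAlg r) = r • (1 : Module.End ℤ ↥(intLattice N 2)) := by
      rw [Algebra.algebraMap_eq_smul_one, map_zsmul, map_one]
    rw [h, LinearMap.smul_apply, Module.End.one_apply, pair_smul_right]
  | grade1 q =>
    have h1 : evPP N (FreeAlgebra.ι ℤ q) = tpp (q.1 : ℕ) := FreeAlgebra.lift_ι_apply _ _
    have h2 : piH N (FreeAlgebra.ι ℤ q) = MvPolynomial.X q.1 := FreeAlgebra.lift_ι_apply _ _
    rw [h1, h2, pair_tpp]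
  | mul s t hs ht =>
    rw [map_mul, map_mul, Module.End.mul_apply, hs, ht, mul_comm (piH N s) (piH N t), map_mul,
      Module.End.mul_apply]
  | add s t hs ht =>
    rw [map_add, map_add, LinearMap.add_apply, pair_add, hs, ht, map_add, LinearMap.add_apply,
      pair_add_right]

theorem pairStmt : PairStmt N := by
  intro s₁ s₂ g
  show pair N (ppc N s₁ s₂) g = _
  unfold ppc actT
  rw [pair_add, pair_evPP, pair_evPP, pair_single, pair_single, one_mul, one_mul, map_add,
    LinearMap.add_apply, map_add, mul_comm (piH N s₂) (XN N), map_mul, Module.End.mul_apply]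
  congr 1
  have h := (isHeckeLattice_intLattice N).hU ⟨N, Fact.out⟩ rfl (actL N (piH N s₂) g) 1
  rw [XN, h]
  simp

end Fermat.Agent.S12.FI

end
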