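/-
S12 / FI (helper119): the contract `ResStmt` (residue theorem for `Y g dq/q`, `Y` regular outside `∞`),
from `S44.F.pp_orthogonal` (helper102's bridge + the analytic residue theorem `S44.F.I1`).
-/
import Fermat.Agent.S12.FI.Defs
import Fermat.Agent.S44.F.Dim.Bridge.Main

set_option autoImplicit false

noncomputable section

namespace Fermat.Agent.S12.FI

open ModularCurve AlgebraicCurve CuspForm
open Fermat.Agent.S24 Fermat.Agent.S27 Fermat.Agent.S37 Fermat.Agent.S15 Fermat.Agent.S15.A
open Fermat.Agent.S16.R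

variable (N : ℕ) [Fact N.Prime]

omit [Fact N.Prime] in
theorem mem_Linf_of_regOffInf {Y : FN N} (hY : RegOffInf N Y) (m : ℕ)
    (hm : ∀ k : ℤ, k < -(m : ℤ) → (Y : LaurentSeries Kbar).coeff k = 0) :
    Y ∈ Fermat.Agent.S44.F.Linf N m := by
  rw [mem_riemannRochSpace_iff]
  intro v
  rcases eq_or_ne Y 0 with h0 | h0
  · exact Or.inl h0
  refine Or.inr ?_
  by_cases hv : v = cInf N
  · subst hv
    rw [Finsupp.single_eq_same, Fermat.Agent.S17.W.ord_cusp N Y h0]
    by_contra hlt
    rw [not_le] at hlt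
    have h1 : (Y : LaurentSeries Kbar) ≠ 0 := fun h => h0 (Subtype.ext h)
    exact h1 (HahnSeries.coeff_order_eq_zero.1 (hm _ hlt))
  · rw [Finsupp.single_eq_of_ne hv, neg_zero]
    exact hY v hv

theorem resStmt : ResStmt N := by
  intro Y hY g m hm
  have h := Fermat.Agent.S44.F.pp_orthogonal Y (mem_Linf_of_regOffInf N hY m hm) g.1
  apply iota.injective
  rw [map_zero, map_sum, ← h]
  refine Finset.sum_congr rfl fun n _ => ?_
  rw [map_mul, map_intCast, aZ_spec]

end Fermat.Agent.S12.FI

end
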